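/-
S52 (3–5 switch), package (MN) of the Manin-style Cayley–Hamilton argument, polynomial core
(helper37).  `F = ZMod ℓ`, `f = X³ + A X + B` with `4A³ + 27B² ≠ 0`.

The `x`-coordinate of `Φ P₀ - P₀` on the twist `f(t) y² = f(x)` over `F(t)` is `num / den`,
  `num = f (f^((ℓ-1)/2) + 1)² - (X^ℓ + X)(X^ℓ - X)²`,   `den = (X^ℓ - X)²`.
`manin_core`: after cancelling `G = ∏_{f(a) non-square} (X - a)² ∏_{f(a) = 0} (X - a)` the fraction is
reduced, and the numerator has degree `1 + #{f(a) = 0} + 2 #{f(a) a nonzero square}`, which is larger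
than the degree of the denominator.
`card_points`: this number is `1 + #{(x, y) | y² = f(x)}`.
-/
import Mathlib

set_option autoImplicit false

namespace Fermat.Agent.S52.H37

open Polynomial Finset

variable {ℓ : ℕ} [hℓ : Fact ℓ.Prime]

theorem prod_X_sub_C_eq : ∏ a : ZMod ℓ, (X - C a) = (X ^ ℓ - X : (ZMod ℓ)[X]) := by
  have hcard : Fintype.card (ZMod ℓ) = ℓ := ZMod.card ℓ
  have h1 : 1 < ℓ := hℓ.out.one_lt
  have hdeg : (X ^ ℓ - X : (ZMod ℓ)[X]).natDegree = ℓ := FiniteField.X_pow_card_sub_X_natDegree_eq _ h1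
  have hmonic : (X ^ ℓ - X : (ZMod ℓ)[X]).Monic := by
    apply monic_X_pow_sub
    rw [degree_X]
    exact_mod_cast h1
  have hroots : (X ^ ℓ - X : (ZMod ℓ)[X]).roots = Finset.univ.val := by
    have h := FiniteField.roots_X_pow_card_sub_X (ZMod ℓ)
    rwa [hcard] at h
  have h := prod_multiset_X_sub_C_of_monic_of_roots_card_eq hmonic (by
    rw [hroots, hdeg]
    simp [hcard])
  rw [hroots] at h
  rw [← h]
  rfl

/-- The cubic `X³ + A X + B`. -/
noncomputable def cubic (A B : ZMod ℓ) : (ZMod ℓ)[X] := X ^ 3 + C A * X + C B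

theorem eval_cubic (A B a : ZMod ℓ) : (cubic A B).eval a = a ^ 3 + A * a + B := by
  simp [cubic]

theorem derivative_cubic (A B : ZMod ℓ) :
    derivative (cubic A B) = 3 * X ^ 2 + C A := by
  unfold cubic
  rw [derivative_add, derivative_add, derivative_C, add_zero, derivative_C_mul, derivative_X,
    mul_one, derivative_X_pow]
  norm_num
  exact map_ofNat C 3

theorem eval_derivative_cubic (A B a : ZMod ℓ) :
    (derivative (cubic A B)).eval a = 3 * a ^ 2 + A := by
  rw [derivative_cubic]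
  simp

theorem natDegree_cubic_le (A B : ZMod ℓ) : (cubic A B).natDegree ≤ 3 := by
  unfold cubic
  compute_degree

/-- A root of the cubic is simple when the discriminant is nonzero. -/
theorem eval_derivative_cubic_ne_zero {A B : ZMod ℓ} (hΔ : 4 * A ^ 3 + 27 * B ^ 2 ≠ 0) {a : ZMod ℓ}
    (ha : (cubic A B).eval a = 0) : (derivative (cubic A B)).eval a ≠ 0 := by
  rw [eval_cubic] at ha
  rw [eval_derivative_cubic]
  intro h
  apply hΔ
  linear_combination (4 * A ^ 2 + 3 * a * (2 * A * a - 3 * B)) * h - 9 * (2 * A * a - 3 * B) * ha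

/-- The numerator of `x(Φ P₀ - P₀)`. -/
noncomputable def maninNum (A B : ZMod ℓ) : (ZMod ℓ)[X] :=
  cubic A B * (cubic A B ^ (ℓ / 2) + 1) ^ 2 - (X ^ ℓ + X) * (X ^ ℓ - X) ^ 2

/-- The zeros of `f` in `F`. -/
noncomputable def zeroSet (A B : ZMod ℓ) : Finset (ZMod ℓ) :=
  univ.filter fun a => (cubic A B).eval a = 0

/-- The points where `f` is a nonzero square. -/
noncomputable def sqSet (A B : ZMod ℓ) : Finset (ZMod ℓ) :=
  (univ.filter fun a => ¬ (cubic A B).eval a = 0).filter fun a => IsSquare ((cubic A B).eval a)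

/-- The points where `f` is a non-square. -/
noncomputable def nsqSet (A B : ZMod ℓ) : Finset (ZMod ℓ) :=
  (univ.filter fun a => ¬ (cubic A B).eval a = 0).filter fun a => ¬ IsSquare ((cubic A B).eval a)

/-- `∏_{a ∈ s} (X - a)`. -/
noncomputable def linProd (s : Finset (ZMod ℓ)) : (ZMod ℓ)[X] := ∏ a ∈ s, (X - C a)

theorem linProd_monic (s : Finset (ZMod ℓ)) : (linProd s).Monic :=
  monic_prod_of_monic _ _ fun a _ => monic_X_sub_C a

theorem natDegree_linProd (s : Finset (ZMod ℓ)) : (linProd s).natDegree = s.card := by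
  rw [linProd, natDegree_prod_of_monic _ _ fun a _ => monic_X_sub_C a]
  simp

theorem eval_linProd_ne_zero {s : Finset (ZMod ℓ)} {a : ZMod ℓ} (ha : a ∉ s) :
    (linProd s).eval a ≠ 0 := by
  rw [linProd, eval_prod, Finset.prod_ne_zero_iff]
  intro b hb
  rw [eval_sub, eval_X, eval_C, sub_ne_zero]
  rintro rfl
  exact ha hb

theorem eval_linProd_eq_zero {s : Finset (ZMod ℓ)} {a : ZMod ℓ} (ha : a ∈ s) :
    (linProd s).eval a = 0 := by
  rw [linProd, eval_prod]
  exact Finset.prod_eq_zero ha (by simp)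

theorem linProd_dvd {s : Finset (ZMod ℓ)} {p : (ZMod ℓ)[X]} (h : ∀ a ∈ s, p.eval a = 0) :
    linProd s ∣ p := by
  refine Finset.prod_dvd_of_coprime ?_ fun a ha => dvd_iff_isRoot.mpr (h a ha)
  intro a _ b _ hab
  exact pairwise_coprime_X_sub_C (fun x y h => h) hab

theorem isCoprime_linProd {s : Finset (ZMod ℓ)} {p : (ZMod ℓ)[X]} (h : ∀ a ∈ s, p.eval a ≠ 0) :
    IsCoprime p (linProd s) := by
  refine IsCoprime.prod_right fun a ha => ?_
  refine ((irreducible_X_sub_C a).coprime_iff_not_dvd.mpr ?_).symm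
  rw [dvd_iff_isRoot]
  exact h a ha

theorem linProd_mul_linProd_mul_linProd (A B : ZMod ℓ) :
    linProd (zeroSet A B) * (linProd (sqSet A B) * linProd (nsqSet A B)) = X ^ ℓ - X := by
  rw [← prod_X_sub_C_eq]
  unfold linProd zeroSet sqSet nsqSet
  rw [Finset.prod_filter_mul_prod_filter_not, Finset.prod_filter_mul_prod_filter_not]

theorem card_zeroSet_add (A B : ZMod ℓ) :
    (zeroSet A B).card + ((sqSet A B).card + (nsqSet A B).card) = ℓ := by
  unfold zeroSet sqSet nsqSet
  rw [Finset.card_filter_add_card_filter_not, Finset.card_filter_add_card_filter_not,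
    Finset.card_univ, ZMod.card]

theorem mem_zeroSet {A B a : ZMod ℓ} : a ∈ zeroSet A B ↔ (cubic A B).eval a = 0 := by
  simp [zeroSet]

theorem mem_sqSet {A B a : ZMod ℓ} :
    a ∈ sqSet A B ↔ (cubic A B).eval a ≠ 0 ∧ IsSquare ((cubic A B).eval a) := by
  simp [sqSet]

theorem mem_nsqSet {A B a : ZMod ℓ} :
    a ∈ nsqSet A B ↔ (cubic A B).eval a ≠ 0 ∧ ¬ IsSquare ((cubic A B).eval a) := by
  simp [nsqSet]

theorem eval_pow_card (a : ZMod ℓ) : a ^ ℓ = a := ZMod.pow_card a

section odd

variable (hodd : ℓ ≠ 2)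
include hodd

omit hℓ in
theorem two_mul_half_add_one [Fact ℓ.Prime] : 2 * (ℓ / 2) + 1 = ℓ := by
  have h := (Fact.out : ℓ.Prime).eq_two_or_odd
  omega

theorem two_ne_zero_zmod : (2 : ZMod ℓ) ≠ 0 := by
  intro h
  have h2 : ((2 : ℕ) : ZMod ℓ) = 0 := by exact_mod_cast h
  rw [ZMod.natCast_eq_zero_iff] at h2
  have := (Nat.prime_dvd_prime_iff_eq hℓ.out Nat.prime_two).mp h2
  exact hodd this

/-- Value of the numerator at a point where `f` is a nonzero square. -/
theorem eval_maninNum_of_mem_sqSet {A B a : ZMod ℓ} (ha : a ∈ sqSet A B) :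
    (maninNum A B).eval a ≠ 0 := by
  rw [mem_sqSet] at ha
  have h1 : (cubic A B).eval a ^ (ℓ / 2) = 1 := (ZMod.euler_criterion ℓ ha.1).mp ha.2
  have h2 : (maninNum A B).eval a = 4 * (cubic A B).eval a := by
    simp only [maninNum, eval_sub, eval_mul, eval_pow, eval_add, eval_one, eval_X, h1,
      eval_pow_card]
    ring
  rw [h2]
  have h4 : (4 : ZMod ℓ) ≠ 0 := by
    have := two_ne_zero_zmod hodd
    have h22 : (4 : ZMod ℓ) = 2 * 2 := by norm_num
    rw [h22]
    exact mul_ne_zero this this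
  exact mul_ne_zero h4 ha.1

omit hodd in
/-- `∏_{non-squares} (X - a)` divides `f^((ℓ-1)/2) + 1`. -/
theorem linProd_nsqSet_dvd (A B : ZMod ℓ) :
    linProd (nsqSet A B) ∣ cubic A B ^ (ℓ / 2) + 1 := by
  refine linProd_dvd fun a ha => ?_
  rw [mem_nsqSet] at ha
  have h1 : (cubic A B).eval a ^ (ℓ / 2) = -1 := by
    rcases ZMod.pow_div_two_eq_neg_one_or_one ℓ ha.1 with h | h
    · exact absurd ((ZMod.euler_criterion ℓ ha.1).mpr h) ha.2
    · exact h
  simp [h1]

omit hodd in
/-- `G = ∏_{non-squares} (X - a)² ∏_{zeros} (X - a)` divides the numerator. -/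
theorem cancel_dvd_maninNum (A B : ZMod ℓ) :
    linProd (nsqSet A B) ^ 2 * linProd (zeroSet A B) ∣ maninNum A B := by
  have hD := linProd_mul_linProd_mul_linProd A B
  have h1 : linProd (nsqSet A B) ^ 2 ∣ maninNum A B := by
    unfold maninNum
    refine dvd_sub (Dvd.dvd.mul_left (pow_dvd_pow_of_dvd (linProd_nsqSet_dvd A B) 2) _)
      (Dvd.dvd.mul_left (pow_dvd_pow_of_dvd ?_ 2) _)
    rw [← hD]
    exact Dvd.intro_left (linProd (zeroSet A B) * linProd (sqSet A B)) (by ring)
  have h2 : linProd (zeroSet A B) ∣ maninNum A B := by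
    unfold maninNum
    refine dvd_sub (Dvd.dvd.mul_right (linProd_dvd fun a ha => mem_zeroSet.mp ha) _)
      (Dvd.dvd.mul_left (Dvd.dvd.pow ?_ two_ne_zero) _)
    rw [← hD]
    exact Dvd.intro _ rfl
  have hcop : IsCoprime (linProd (nsqSet A B) ^ 2) (linProd (zeroSet A B)) := by
    refine IsCoprime.pow_left (isCoprime_linProd fun a ha => eval_linProd_ne_zero ?_)
    intro h
    exact (mem_nsqSet.mp h).1 (mem_zeroSet.mp ha)
  exact hcop.mul_dvd h1 h2

/-- The numerator is `X^(2ℓ+1)` plus lower-order terms. -/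
theorem maninNum_eq (A B : ZMod ℓ) :
    maninNum A B = X ^ (2 * ℓ + 1) + (X ^ (ℓ + 2) + C A * X ^ ℓ + 2 * cubic A B ^ (ℓ / 2 + 1)
      + cubic A B - X ^ 3 + C B) := by
  have hfrob : cubic A B ^ ℓ = (X ^ ℓ) ^ 3 + C A * X ^ ℓ + C B := by
    rw [← ZMod.expand_card]
    simp [cubic]
  have hpow : cubic A B * (cubic A B ^ (ℓ / 2)) ^ 2 = cubic A B ^ ℓ := by
    rw [← pow_mul, ← pow_succ', mul_comm (ℓ / 2) 2, two_mul_half_add_one hodd]
  have h1 : cubic A B * (cubic A B ^ (ℓ / 2) + 1) ^ 2 =
      cubic A B ^ ℓ + 2 * cubic A B ^ (ℓ / 2 + 1) + cubic A B := by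
    rw [← hpow, pow_succ]
    ring
  unfold maninNum
  rw [h1, hfrob]
  ring

theorem natDegree_maninNum (A B : ZMod ℓ) : (maninNum A B).natDegree = 2 * ℓ + 1 := by
  have h3 : 3 ≤ ℓ := by
    have h := hℓ.out.two_le
    omega
  have hhalf := two_mul_half_add_one (ℓ := ℓ) hodd
  rw [maninNum_eq hodd]
  have hlow : (X ^ (ℓ + 2) + C A * X ^ ℓ + 2 * cubic A B ^ (ℓ / 2 + 1)
      + cubic A B - X ^ 3 + C B : (ZMod ℓ)[X]).natDegree ≤ 2 * ℓ := by
    have hc := natDegree_cubic_le A B
    have hpw : (cubic A B ^ (ℓ / 2 + 1)).natDegree ≤ 2 * ℓ :=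
      (natDegree_pow_le).trans (by nlinarith)
    refine (natDegree_add_le _ _).trans (max_le ((natDegree_sub_le _ _).trans (max_le
      ((natDegree_add_le _ _).trans (max_le ((natDegree_add_le _ _).trans (max_le
        ((natDegree_add_le _ _).trans (max_le ?_ ?_)) ?_)) ?_)) ?_)) ?_)
    · rw [natDegree_X_pow]; omega
    · exact (natDegree_C_mul_le _ _).trans (by rw [natDegree_X_pow]; omega)
    · exact (natDegree_mul_le).trans (by
        have : (2 : (ZMod ℓ)[X]).natDegree = 0 := natDegree_ofNat 2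
        omega)
    · omega
    · rw [natDegree_X_pow]; omega
    · rw [natDegree_C]; omega
  rw [natDegree_add_eq_left_of_natDegree_lt]
  · exact natDegree_X_pow _
  · rw [natDegree_X_pow]
    omega

/-- **Manin's count, polynomial core.** -/
theorem manin_core {A B : ZMod ℓ} (hΔ : 4 * A ^ 3 + 27 * B ^ 2 ≠ 0) :
    ∃ G num' den' : (ZMod ℓ)[X],
      maninNum A B = G * num' ∧ (X ^ ℓ - X) ^ 2 = G * den' ∧ IsCoprime num' den' ∧ den'.Monic ∧
      num'.natDegree = 1 + (zeroSet A B).card + 2 * (sqSet A B).card ∧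
      den'.natDegree < num'.natDegree := by
  obtain ⟨num', hnum'⟩ := cancel_dvd_maninNum A B
  have hD := linProd_mul_linProd_mul_linProd A B
  have hcard := card_zeroSet_add A B
  refine ⟨linProd (nsqSet A B) ^ 2 * linProd (zeroSet A B), num',
    linProd (sqSet A B) ^ 2 * linProd (zeroSet A B), hnum', ?_, ?_, ?_, ?_⟩
  · rw [← hD]
    ring
  · -- coprimality
    have hsq : ∀ a ∈ sqSet A B, num'.eval a ≠ 0 := by
      intro a ha h0
      apply eval_maninNum_of_mem_sqSet hodd ha
      rw [hnum', eval_mul, h0, mul_zero]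
    have hz : ∀ a ∈ zeroSet A B, num'.eval a ≠ 0 := by
      intro a ha h0
      have hfa : (cubic A B).eval a = 0 := mem_zeroSet.mp ha
      have hd1 : (derivative (maninNum A B)).eval a = (derivative (cubic A B)).eval a := by
        have hhalf : ℓ / 2 ≠ 0 := by
          have h := hℓ.out.two_le
          omega
        simp only [maninNum, derivative_sub, derivative_mul, derivative_pow, derivative_add,
          derivative_one, derivative_X, eval_sub, eval_mul, eval_pow, eval_add,
          eval_one, eval_X, eval_C, hfa, eval_pow_card, zero_pow hhalf]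
        ring
      have hd2 : (derivative (maninNum A B)).eval a = 0 := by
        rw [hnum', derivative_mul, eval_add, eval_mul, eval_mul, h0, mul_zero, zero_add,
          eval_mul, eval_linProd_eq_zero ha, mul_zero, zero_mul]
      exact eval_derivative_cubic_ne_zero hΔ hfa (hd1 ▸ hd2)
    exact IsCoprime.mul_right (IsCoprime.pow_right (isCoprime_linProd hsq)) (isCoprime_linProd hz)
  · exact ((linProd_monic _).pow 2).mul (linProd_monic _)
  · have hG : (linProd (nsqSet A B) ^ 2 * linProd (zeroSet A B)).natDegree =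
        2 * (nsqSet A B).card + (zeroSet A B).card := by
      rw [(((linProd_monic _).pow 2).natDegree_mul (linProd_monic _)),
        (linProd_monic _).natDegree_pow, natDegree_linProd, natDegree_linProd]
    have hden : (linProd (sqSet A B) ^ 2 * linProd (zeroSet A B)).natDegree =
        2 * (sqSet A B).card + (zeroSet A B).card := by
      rw [(((linProd_monic _).pow 2).natDegree_mul (linProd_monic _)),
        (linProd_monic _).natDegree_pow, natDegree_linProd, natDegree_linProd]
    have hne : num' ≠ 0 := by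
      rintro rfl
      have h := natDegree_maninNum hodd A B
      rw [hnum', mul_zero, natDegree_zero] at h
      omega
    have hdeg := natDegree_maninNum hodd A B
    rw [hnum', (((linProd_monic _).pow 2).mul (linProd_monic _)).natDegree_mul' hne, hG] at hdeg
    rw [hden]
    constructor <;> omega

end odd

end Fermat.Agent.S52.H37
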