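/-
S52 (3–5 switch), package (MN), point count (helper37).
For `ℓ` an odd prime and `W : y² = x³ + A x + B` over `ZMod ℓ` with `4A³ + 27B² ≠ 0`:
  `Nat.card W.Point = 1 + #{a | f(a) = 0} + 2 #{a | f(a) a nonzero square}`,
in the notation `zeroSet`, `sqSet` of `ManinCount`.
-/
import Mathlib
import Fermat.Agent.S52.H37.ManinCount

set_option autoImplicit false

namespace Fermat.Agent.S52.H37

open Polynomial Finset

variable {ℓ : ℕ} [hℓ : Fact ℓ.Prime]

/-- The number of square roots of `c` in `ZMod ℓ`, `ℓ` odd. -/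
theorem card_sq_eq (hodd : ℓ ≠ 2) (c : ZMod ℓ) :
    (univ.filter fun y : ZMod ℓ => y ^ 2 = c).card =
      if c = 0 then 1 else if IsSquare c then 2 else 0 := by
  by_cases hc : c = 0
  · subst hc
    rw [if_pos rfl]
    have : (univ.filter fun y : ZMod ℓ => y ^ 2 = 0) = {0} := by
      ext y
      simp
    rw [this, card_singleton]
  · rw [if_neg hc]
    by_cases hs : IsSquare c
    · rw [if_pos hs]
      obtain ⟨d, rfl⟩ := hs
      have hd : d ≠ 0 := by
        rintro rfl
        exact hc (by simp)
      have hne : d ≠ -d := by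
        intro h
        have h2 : 2 * d = 0 := by linear_combination h
        rcases mul_eq_zero.mp h2 with h | h
        · exact two_ne_zero_zmod hodd h
        · exact hd h
      have : (univ.filter fun y : ZMod ℓ => y ^ 2 = d * d) = {d, -d} := by
        ext y
        simp only [mem_filter, mem_univ, true_and, mem_insert, mem_singleton]
        constructor
        · intro h
          have h' : (y - d) * (y + d) = 0 := by linear_combination h
          rcases mul_eq_zero.mp h' with h | h
          · left; linear_combination h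
          · right; linear_combination h
        · rintro (rfl | rfl) <;> ring
      rw [this, card_pair hne]
    · rw [if_neg hs]
      rw [card_eq_zero, filter_eq_empty_iff]
      intro y _ hy
      exact hs ⟨y, by rw [← hy]; ring⟩

/-- The number of solutions of `y² = f(x)`. -/
theorem card_sol (hodd : ℓ ≠ 2) (A B : ZMod ℓ) :
    (univ.filter fun xy : ZMod ℓ × ZMod ℓ => xy.2 ^ 2 = (cubic A B).eval xy.1).card =
      (zeroSet A B).card + 2 * (sqSet A B).card := by
  rw [card_filter, ← univ_product_univ, sum_product]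
  have h1 : ∀ x : ZMod ℓ, (∑ y : ZMod ℓ, if y ^ 2 = (cubic A B).eval x then 1 else 0) =
      (if (cubic A B).eval x = 0 then 1 else 0) +
        2 * (if (cubic A B).eval x ≠ 0 ∧ IsSquare ((cubic A B).eval x) then 1 else 0) := by
    intro x
    rw [← card_filter, card_sq_eq hodd]
    by_cases h0 : (cubic A B).eval x = 0
    · simp [h0]
    · by_cases hs : IsSquare ((cubic A B).eval x)
      · simp [h0, hs]
      · simp [h0, hs]
  rw [sum_congr rfl fun x _ => h1 x, sum_add_distrib, ← mul_sum, ← card_filter, ← card_filter]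
  congr 2
  congr 1
  ext a
  simp [sqSet]

/-- **Point count of a short Weierstrass curve over `ZMod ℓ`.** -/
theorem card_point_eq (hodd : ℓ ≠ 2) {A B : ZMod ℓ} (hΔ : 4 * A ^ 3 + 27 * B ^ 2 ≠ 0)
    (W : WeierstrassCurve (ZMod ℓ)) (h1 : W.a₁ = 0) (h2 : W.a₂ = 0) (h3 : W.a₃ = 0)
    (h4 : W.a₄ = A) (h6 : W.a₆ = B) :
    Nat.card W.toAffine.Point = 1 + (zeroSet A B).card + 2 * (sqSet A B).card := by
  have h2' : (2 : ZMod ℓ) ≠ 0 := two_ne_zero_zmod hodd
  have hWΔ : W.Δ ≠ 0 := by
    have : W.Δ = -(2 ^ 4) * (4 * A ^ 3 + 27 * B ^ 2) := by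
      simp only [WeierstrassCurve.Δ, WeierstrassCurve.b₂, WeierstrassCurve.b₄, WeierstrassCurve.b₆,
        WeierstrassCurve.b₈, h1, h2, h3, h4, h6]
      ring
    rw [this]
    exact mul_ne_zero (neg_ne_zero.mpr (pow_ne_zero 4 h2')) hΔ
  have e1 := W.toAffine.nonsingularPointEquiv
  rw [Nat.card_congr e1]
  have e2 : {xy : ZMod ℓ × ZMod ℓ // W.toAffine.Nonsingular xy.fst xy.snd} ≃
      {xy : ZMod ℓ × ZMod ℓ // xy.2 ^ 2 = (cubic A B).eval xy.1} :=
    Equiv.subtypeEquivRight fun xy => by
      rw [← WeierstrassCurve.Affine.equation_iff_nonsingular_of_Δ_ne_zero hWΔ,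
        WeierstrassCurve.Affine.equation_iff, h1, h2, h3, h4, h6, eval_cubic]
      constructor
      · intro h
        linear_combination h
      · intro h
        linear_combination h
  have hc : Nat.card (WithZero {xy : ZMod ℓ × ZMod ℓ // W.toAffine.Nonsingular xy.fst xy.snd}) =
      Nat.card {xy : ZMod ℓ × ZMod ℓ // W.toAffine.Nonsingular xy.fst xy.snd} + 1 :=
    Finite.card_option
  rw [hc, Nat.card_congr e2, Nat.card_eq_fintype_card, Fintype.card_subtype, card_sol hodd]
  ring

end Fermat.Agent.S52.H37
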