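/-
S52 (3–5 switch), package (MN) of the Manin-style Cayley–Hamilton argument (helper37).
`F = ZMod ℓ`, `K = RatFunc F`, `t = X`, `lam = f(t)`, `f = X³ + A X + B`, `4A³ + 27B² ≠ 0`.
On the twist `E_lam : Y² = X³ + A lam² X + B lam³` (the Weierstrass form of `lam y² = f(x)`,
`X = lam x`, `Y = lam² y`) with `P₀ = (lam t, lam²)` and `Φ P₀ = (lam t^ℓ, lam^((ℓ-1)/2 + 2))`:
  the point `Φ P₀ - P₀` is affine and `x(Φ P₀ - P₀) / lam` is a rational function whose reduced
  numerator has degree `#E(F_ℓ)` and whose reduced denominator has smaller degree.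
-/
import Mathlib
import Fermat.Agent.S52.H37.PointCount

set_option autoImplicit false

namespace Fermat.Agent.S52.H37

open Polynomial

section generic

variable {F : Type*} [Field F]

theorem gcd_eq_one_of_isCoprime [NormalizedGCDMonoid F[X]] {a b : F[X]} (hab : IsCoprime a b) :
    gcd a b = 1 := by
  rw [← normalize_gcd, normalize_eq_one, gcd_isUnit_iff]
  exact hab

theorem num_div_of_isCoprime {a b : F[X]} (hb : b.Monic) (hab : IsCoprime a b) :
    (algebraMap F[X] (RatFunc F) a / algebraMap F[X] (RatFunc F) b).num = a := by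
  classical
  rw [RatFunc.num_div, gcd_eq_one_of_isCoprime hab]
  simp [hb.leadingCoeff]

theorem denom_div_of_isCoprime {a b : F[X]} (hb : b.Monic) (hab : IsCoprime a b) :
    (algebraMap F[X] (RatFunc F) a / algebraMap F[X] (RatFunc F) b).denom = b := by
  classical
  rw [RatFunc.denom_div _ hb.ne_zero, gcd_eq_one_of_isCoprime hab]
  simp [hb.leadingCoeff]

end generic

variable {ℓ : ℕ} [hℓ : Fact ℓ.Prime]

/-- The rational function `x(Φ P₀ - P₀)` (in the coordinate `x = X / lam`). -/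
noncomputable def maninFrac (A B : ZMod ℓ) : RatFunc (ZMod ℓ) :=
  algebraMap (ZMod ℓ)[X] (RatFunc (ZMod ℓ)) (maninNum A B) /
    algebraMap (ZMod ℓ)[X] (RatFunc (ZMod ℓ)) ((X ^ ℓ - X) ^ 2)

/-- **(MN), rational-function form**: the reduced numerator of `x(Φ P₀ - P₀)` has degree
`1 + #{f = 0} + 2 #{f a nonzero square}` and the reduced denominator has smaller degree. -/
theorem natDegree_num_maninFrac (hodd : ℓ ≠ 2) {A B : ZMod ℓ} (hΔ : 4 * A ^ 3 + 27 * B ^ 2 ≠ 0) :
    (maninFrac A B).num.natDegree = 1 + (zeroSet A B).card + 2 * (sqSet A B).card ∧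
      (maninFrac A B).denom.natDegree < (maninFrac A B).num.natDegree := by
  obtain ⟨G, num', den', hnum, hden, hcop, hmonic, hdeg, hlt⟩ := manin_core hodd hΔ
  have hG : G ≠ 0 := by
    rintro rfl
    have h := natDegree_maninNum hodd A B
    rw [hnum, zero_mul, natDegree_zero] at h
    omega
  have hG' : algebraMap (ZMod ℓ)[X] (RatFunc (ZMod ℓ)) G ≠ 0 := by
    rw [Ne, ← (algebraMap (ZMod ℓ)[X] (RatFunc (ZMod ℓ))).map_zero]
    exact fun h => hG (RatFunc.algebraMap_injective _ h)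
  have hfrac : maninFrac A B = algebraMap (ZMod ℓ)[X] (RatFunc (ZMod ℓ)) num' /
      algebraMap (ZMod ℓ)[X] (RatFunc (ZMod ℓ)) den' := by
    unfold maninFrac
    rw [hnum, hden, map_mul, map_mul, mul_div_mul_left _ _ hG']
  rw [hfrac, num_div_of_isCoprime hmonic hcop, denom_div_of_isCoprime hmonic hcop]
  exact ⟨hdeg, hlt⟩

/-- **(MN), rational-function form with the point count.** -/
theorem natDegree_num_maninFrac_eq_card (hodd : ℓ ≠ 2) {A B : ZMod ℓ}
    (hΔ : 4 * A ^ 3 + 27 * B ^ 2 ≠ 0)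
    (W : WeierstrassCurve (ZMod ℓ)) (h1 : W.a₁ = 0) (h2 : W.a₂ = 0) (h3 : W.a₃ = 0)
    (h4 : W.a₄ = A) (h6 : W.a₆ = B) :
    max (maninFrac A B).num.natDegree (maninFrac A B).denom.natDegree =
      Nat.card W.toAffine.Point := by
  obtain ⟨h, hlt⟩ := natDegree_num_maninFrac hodd hΔ
  rw [card_point_eq hodd hΔ W h1 h2 h3 h4 h6, max_eq_left hlt.le, h]

end Fermat.Agent.S52.H37
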