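/-
S52 (3–5 switch), Program E, package E1, leaf (MN) of the Manin-style Cayley–Hamilton argument
(helper37), in the model of `Fermat.Agent.S52.H76` (`Etw`, `P0`, `hP`, `lam`):

  `hP (Φ P₀ - P₀) = #E(F_ℓ)`,

where `Φ P₀ = (lam t^ℓ, lam^((ℓ-1)/2 + 2))` is the image of `P₀ = (lam t, lam²)` under the
Frobenius endomorphism `Φ (X, Y) = (X^ℓ / lam^(ℓ-1), Y^ℓ / lam^(3(ℓ-1)/2))` of the twist
`Etw : Y² = X³ + A lam² X + B lam³` over `F_ℓ(t)`, and `E : y² = x³ + A x + B` over `F_ℓ`.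
-/
import Mathlib
import Fermat.Agent.S52.H76.MStar
import Fermat.Agent.S52.H37.ManinHeight

set_option autoImplicit false

namespace Fermat.Agent.S52.H37

open Polynomial
open Fermat.Agent.S52.H76

variable {ℓ : ℕ} [hℓ : Fact ℓ.Prime]

theorem cubic_eq_fPoly (A B : ZMod ℓ) : cubic A B = fPoly A B := rfl

/-- Frobenius on `lam = f(t)`: `lam^ℓ = f(t^ℓ)`. -/
theorem lam_pow_card (A B : ZMod ℓ) :
    lam A B ^ ℓ = (RatFunc.X ^ ℓ) ^ 3 + RatFunc.C A * RatFunc.X ^ ℓ + RatFunc.C B := by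
  have hfrob : fPoly A B ^ ℓ = (X ^ ℓ) ^ 3 + C A * X ^ ℓ + C B := by
    rw [← ZMod.expand_card]
    simp [fPoly]
  unfold lam
  rw [← map_pow, hfrob]
  simp

/-- `Φ P₀ = (lam t^ℓ, lam^((ℓ-1)/2 + 2))` is a point of the twist. -/
theorem PhiP0_nonsingular (hodd : ℓ ≠ 2) (A B : ZMod ℓ) :
    (Etw A B).toAffine.Nonsingular (lam A B * RatFunc.X ^ ℓ) (lam A B ^ (ℓ / 2 + 2)) := by
  rw [WeierstrassCurve.Affine.nonsingular_iff', Etw_equation_iff]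
  refine ⟨?_, Or.inr ?_⟩
  · have h1 : (lam A B ^ (ℓ / 2 + 2)) ^ 2 = lam A B ^ 3 * lam A B ^ ℓ := by
      rw [← pow_mul, ← pow_add]
      congr 1
      have := two_mul_half_add_one (ℓ := ℓ) hodd
      omega
    rw [h1, lam_pow_card]
    ring
  · simp only [Etw, zero_mul, add_zero]
    exact mul_ne_zero (two_ne_zero_ratFunc (two_ne_zero_zmod hodd))
      (pow_ne_zero _ (lam_ne_zero A B))

theorem X_pow_card_ne_X : (RatFunc.X ^ ℓ : RatFunc (ZMod ℓ)) ≠ RatFunc.X := by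
  intro h
  have h1 : algebraMap (ZMod ℓ)[X] (RatFunc (ZMod ℓ)) (X ^ ℓ) =
      algebraMap (ZMod ℓ)[X] (RatFunc (ZMod ℓ)) X := by
    rw [map_pow, RatFunc.algebraMap_X]
    exact h
  have h2 := RatFunc.algebraMap_injective _ h1
  have h3 := congrArg Polynomial.natDegree h2
  rw [natDegree_X_pow, natDegree_X] at h3
  exact hℓ.out.one_lt.ne' h3

/-- The image of the Manin numerator in `F_ℓ(t)`. -/
theorem algebraMap_maninNum (A B : ZMod ℓ) :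
    algebraMap (ZMod ℓ)[X] (RatFunc (ZMod ℓ)) (maninNum A B) =
      lam A B * (lam A B ^ (ℓ / 2) + 1) ^ 2 -
        (RatFunc.X ^ ℓ + RatFunc.X) * (RatFunc.X ^ ℓ - RatFunc.X) ^ 2 := by
  simp [maninNum, lam, cubic_eq_fPoly]

theorem maninFrac_eq (A B : ZMod ℓ) :
    maninFrac A B = (lam A B * (lam A B ^ (ℓ / 2) + 1) ^ 2 -
        (RatFunc.X ^ ℓ + RatFunc.X) * (RatFunc.X ^ ℓ - RatFunc.X) ^ 2) /
      (RatFunc.X ^ ℓ - RatFunc.X) ^ 2 := by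
  unfold maninFrac
  rw [algebraMap_maninNum]
  simp

variable [DecidableEq (RatFunc (ZMod ℓ))]

/-- **(MN)**, combinatorial form. -/
theorem hP_PhiP0_sub_P0 (hodd : ℓ ≠ 2) {A B : ZMod ℓ} (hΔ : 4 * A ^ 3 + 27 * B ^ 2 ≠ 0)
    (h2 : (2 : ZMod ℓ) ≠ 0) {x y : RatFunc (ZMod ℓ)} (hx : x = lam A B * RatFunc.X ^ ℓ)
    (hy : y = lam A B ^ (ℓ / 2 + 2)) (hQ : (Etw A B).toAffine.Nonsingular x y) :
    hP A B (WeierstrassCurve.Affine.Point.some x y hQ - P0 A B h2) =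
      1 + (zeroSet A B).card + 2 * (sqSet A B).card := by
  subst hx hy
  have hl := lam_ne_zero A B
  have hX : (RatFunc.X ^ ℓ : RatFunc (ZMod ℓ)) - RatFunc.X ≠ 0 := sub_ne_zero.mpr X_pow_card_ne_X
  have hXne : lam A B * RatFunc.X ^ ℓ ≠ lam A B * RatFunc.X := fun h =>
    X_pow_card_ne_X (mul_left_cancel₀ hl h)
  have e : (Etw A B).toAffine.addX (lam A B * RatFunc.X ^ ℓ) (lam A B * RatFunc.X)
      ((lam A B ^ (ℓ / 2 + 2) - (Etw A B).toAffine.negY (lam A B * RatFunc.X) (lam A B ^ 2)) /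
        (lam A B * RatFunc.X ^ ℓ - lam A B * RatFunc.X)) / lam A B = maninFrac A B := by
    rw [maninFrac_eq]
    simp only [WeierstrassCurve.Affine.addX, WeierstrassCurve.Affine.negY, Etw, zero_mul,
      sub_zero, add_zero]
    field_simp
    ring
  rw [sub_eq_add_neg, P0, WeierstrassCurve.Affine.Point.neg_some,
    WeierstrassCurve.Affine.Point.add_of_X_ne hXne, hP_some,
    WeierstrassCurve.Affine.slope_of_X_ne hXne, e]
  obtain ⟨h, hlt⟩ := natDegree_num_maninFrac hodd hΔ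
  rw [ht, max_eq_left hlt.le, h]

/-- **(MN)**: `hP (Φ P₀ - P₀) = #E(F_ℓ)` for `E : y² = x³ + A x + B` over `F_ℓ`. -/
theorem hP_PhiP0_sub_P0_eq_card (hodd : ℓ ≠ 2) {A B : ZMod ℓ} (hΔ : 4 * A ^ 3 + 27 * B ^ 2 ≠ 0)
    (h2 : (2 : ZMod ℓ) ≠ 0) {x y : RatFunc (ZMod ℓ)} (hx : x = lam A B * RatFunc.X ^ ℓ)
    (hy : y = lam A B ^ (ℓ / 2 + 2)) (hQ : (Etw A B).toAffine.Nonsingular x y)
    (W : WeierstrassCurve (ZMod ℓ)) (h1 : W.a₁ = 0) (h2' : W.a₂ = 0) (h3 : W.a₃ = 0)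
    (h4 : W.a₄ = A) (h6 : W.a₆ = B) :
    hP A B (WeierstrassCurve.Affine.Point.some x y hQ - P0 A B h2) =
      Nat.card W.toAffine.Point := by
  rw [hP_PhiP0_sub_P0 hodd hΔ h2 hx hy hQ, card_point_eq hodd hΔ W h1 h2' h3 h4 h6]

end Fermat.Agent.S52.H37
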